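import Fermat.Statements.S20
import Fermat.Agent.S20.Final
import Fermat.Agent.S20.Comb
import Fermat.Agent.S20.Sep

set_option autoImplicit false
open CuspForm

namespace Fermat.Agent.S20

theorem result (N : ℕ) [NeZero N] :
    (Module.finrank ℂ (CuspForm (CongruenceSubgroup.Gamma0 N) 2) : ℚ) = ModularCurve.genusFormula N := by
  have hneg : (-1 : Matrix.SpecialLinearGroup (Fin 2) ℤ) ∈ CongruenceSubgroup.Gamma0 N := by
    simp [CongruenceSubgroup.Gamma0_mem]
  have h := main_formula (CongruenceSubgroup.Gamma0 N) hneg (hasSep_Gamma0 N)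
  rw [card_cos, card_fixedBy_S, card_fixedBy_ST, card_orbits_T, ← finrank_CFs] at h
  have h' : (12 : ℚ) * Module.finrank ℂ (CuspForm (CongruenceSubgroup.Gamma0 N) 2) =
      12 + ModularCurve.dedekindPsi N - 3 * ModularCurve.nuTwo N - 4 * ModularCurve.nuThree N
        - 6 * ModularCurve.cuspCount N := by
    exact_mod_cast h
  unfold ModularCurve.genusFormula
  linarith

end Fermat.Agent.S20
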