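-- Statement S02: a counterexample for a prime p ≥ 5 yields a Frey package.
import Fermat.Statements.S02

set_option autoImplicit false
open FreyPackage

namespace Fermat.Agent.S02

/-- Final normalisation: `a` odd, `b` even, coprime. -/
theorem of_odd_even (a b c : ℤ) (ha : a ≠ 0) (hb : b ≠ 0) (hc : c ≠ 0) (p : ℕ) (pp : p.Prime)
    (hp5 : 5 ≤ p) (H : a ^ p + b ^ p = c ^ p) (hab : gcd a b = 1) (ha2 : ¬ (2 : ℤ) ∣ a)
    (hb2 : (2 : ℤ) ∣ b) : Nonempty FreyPackage := by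
  have hodd : Odd p := pp.odd_of_ne_two (by omega)
  have hb2' : ((b : ℤ) : ZMod 2) = 0 := (ZMod.intCast_zmod_eq_zero_iff_dvd b 2).2 hb2
  have h4 : a % 4 = 1 ∨ a % 4 = 3 := by omega
  rcases h4 with h4 | h4
  · refine ⟨⟨-a, -b, -c, neg_ne_zero.2 ha, neg_ne_zero.2 hb, neg_ne_zero.2 hc, p, pp, hp5, ?_, ?_,
      ?_, ?_⟩⟩
    · rw [hodd.neg_pow, hodd.neg_pow, hodd.neg_pow, ← H]; ring
    · rw [gcd_neg, neg_gcd]; exact hab
    · have : ((-a : ℤ) : ZMod 4) = ((3 : ℤ) : ZMod 4) := by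
        rw [ZMod.intCast_eq_intCast_iff]
        show (-a) % ((4 : ℕ) : ℤ) = 3 % ((4 : ℕ) : ℤ)
        push_cast
        omega
      rw [this]; rfl
    · rw [Int.cast_neg, hb2', neg_zero]
  · refine ⟨⟨a, b, c, ha, hb, hc, p, pp, hp5, H, hab, ?_, hb2'⟩⟩
    have : ((a : ℤ) : ZMod 4) = ((3 : ℤ) : ZMod 4) := by
      rw [ZMod.intCast_eq_intCast_iff]
      show a % ((4 : ℕ) : ℤ) = 3 % ((4 : ℕ) : ℤ)
      push_cast
      omega
    rw [this]; rfl

/-- The coprime case. -/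
theorem of_coprime (a b c : ℤ) (ha : a ≠ 0) (hb : b ≠ 0) (hc : c ≠ 0) (p : ℕ) (pp : p.Prime)
    (hp5 : 5 ≤ p) (H : a ^ p + b ^ p = c ^ p) (hab : gcd a b = 1) : Nonempty FreyPackage := by
  have hodd : Odd p := pp.odd_of_ne_two (by omega)
  have hp0 : 0 < p := by omega
  by_cases ha2 : (2 : ℤ) ∣ a
  · -- then b is odd
    have hb2 : ¬ (2 : ℤ) ∣ b := by
      intro hb2
      have h := dvd_gcd ha2 hb2
      rw [hab] at h
      norm_num at h
    exact of_odd_even b a c hb ha hc p pp hp5 (by rw [add_comm]; exact H)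
      (by rw [gcd_comm]; exact hab) hb2 ha2
  · by_cases hb2 : (2 : ℤ) ∣ b
    · exact of_odd_even a b c ha hb hc p pp hp5 H hab ha2 hb2
    · -- both odd, so c is even
      have hc2 : (2 : ℤ) ∣ c := by
        have hao : Odd a := by
          rw [← Int.not_even_iff_odd, even_iff_two_dvd]; exact ha2
        have hbo : Odd b := by
          rw [← Int.not_even_iff_odd, even_iff_two_dvd]; exact hb2
        have hce : Even (c ^ p) := by
          rw [← H]; exact (hao.pow).add_odd (hbo.pow)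
        have : Even c := (Int.even_pow.1 hce).1
        exact even_iff_two_dvd.1 this
      refine of_odd_even a (-c) (-b) ha (neg_ne_zero.2 hc) (neg_ne_zero.2 hb) p pp hp5 ?_ ?_ ha2
        ((dvd_neg).2 hc2)
      · rw [hodd.neg_pow, hodd.neg_pow, ← H]; ring
      · rw [gcd_neg, ← gcdab_eq_gcdac hp0 H]; exact hab

theorem result (a b c : ℤ) (ha : a ≠ 0) (hb : b ≠ 0) (hc : c ≠ 0) (p : ℕ) (pp : p.Prime) (hp5 : 5 ≤ p) (H : a ^ p + b ^ p = c ^ p) : Nonempty FreyPackage := by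
  have hp0 : p ≠ 0 := by omega
  obtain ⟨a', b', ha', hb', hab'⟩ : ∃ a' b' : ℤ, a = gcd a b * a' ∧ b = gcd a b * b' ∧
      gcd a' b' = 1 := by
    have hd0 : gcd a b ≠ 0 := by
      intro h
      exact ha ((gcd_eq_zero_iff a b).1 h).1
    obtain ⟨a', b', h1, h2, h3⟩ := extract_gcd a b
    refine ⟨a', b', h1, h2, ?_⟩
    have := h3
    rw [Int.isUnit_iff] at this
    rcases this with h | h
    · exact h
    · exfalso
      have hnn : (0 : ℤ) ≤ gcd a' b' := by
        show (0 : ℤ) ≤ ((Int.gcd a' b' : ℕ) : ℤ)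
        positivity
      omega
  set d := gcd a b with hd
  have hd0 : d ≠ 0 := by
    intro h
    rw [h, zero_mul] at ha'
    exact ha ha'
  have hdc : d ∣ c := by
    rw [← Int.pow_dvd_pow_iff hp0, ← H]
    apply dvd_add <;> rw [Int.pow_dvd_pow_iff hp0]
    · exact ⟨a', ha'⟩
    · exact ⟨b', hb'⟩
  obtain ⟨c', hc'⟩ := hdc
  have ha0' : a' ≠ 0 := by
    rintro rfl
    rw [mul_zero] at ha'
    exact ha ha'
  have hb0' : b' ≠ 0 := by
    rintro rfl
    rw [mul_zero] at hb'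
    exact hb hb'
  have hc0' : c' ≠ 0 := by
    rintro rfl
    rw [mul_zero] at hc'
    exact hc hc'
  have H' : a' ^ p + b' ^ p = c' ^ p := by
    have hdp : d ^ p ≠ 0 := pow_ne_zero _ hd0
    apply mul_left_cancel₀ hdp
    have h1 : a ^ p = d ^ p * a' ^ p := by
      conv_lhs => rw [ha']
      rw [mul_pow]
    have h2 : b ^ p = d ^ p * b' ^ p := by
      conv_lhs => rw [hb']
      rw [mul_pow]
    have h3 : c ^ p = d ^ p * c' ^ p := by
      conv_lhs => rw [hc']
      rw [mul_pow]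
    rw [mul_add, ← h1, ← h2, ← h3, H]
  exact of_coprime a' b' c' ha0' hb0' hc0' p pp hp5 H' hab'

end Fermat.Agent.S02
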