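-- Statement S07: every weight-2 cusp form of level Γ₀(2) is zero.
-- Proof: Sturm bound (proved prelude lemma) + the crude index bound [SL₂(ℤ) : Γ₀(2)] ≤ 4.
import Fermat.Statements.S07
import Fermat.Prelude.Thm_ModularForm_sturm_bound_Gamma0
import Fermat.Prelude.Thm_CongruenceSubgroup_one_mem_strictPeriods_Gamma0

set_option autoImplicit false
open WeierstrassCurve WeierstrassCurve.Affine WeierstrassCurve.Affine.Point
open CuspForm ModularFormClass UpperHalfPlane
open ModularForm

namespace Fermat.Agent.S07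

open scoped MatrixGroups

/-- The first column of a matrix in `SL(2, ℤ)` reduced mod `2`. -/
noncomputable def firstCol (g : SL(2, ℤ)) : ZMod 2 × ZMod 2 :=
  (((g 0 0 : ℤ) : ZMod 2), ((g 1 0 : ℤ) : ZMod 2))

theorem inv_mul_mem_of_firstCol_eq {g₁ g₂ : SL(2, ℤ)} (h : firstCol g₁ = firstCol g₂) :
    g₁⁻¹ * g₂ ∈ CongruenceSubgroup.Gamma0 2 := by
  rw [CongruenceSubgroup.Gamma0_mem]
  have h0 : ((g₁ 0 0 : ℤ) : ZMod 2) = ((g₂ 0 0 : ℤ) : ZMod 2) := congrArg Prod.fst h
  have h1 : ((g₁ 1 0 : ℤ) : ZMod 2) = ((g₂ 1 0 : ℤ) : ZMod 2) := congrArg Prod.snd h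
  have key : ((g₁⁻¹ * g₂ : SL(2, ℤ)) 1 0 : ℤ) = -(g₁ 1 0) * (g₂ 0 0) + (g₁ 0 0) * (g₂ 1 0) := by
    rw [Matrix.SpecialLinearGroup.coe_mul, Matrix.SpecialLinearGroup.SL2_inv_expl,
      Matrix.mul_apply, Fin.sum_univ_two]
    simp
  rw [key]
  push_cast
  rw [h0, h1]
  ring

theorem index_Gamma0_two_le : (CongruenceSubgroup.Gamma0 2).index ≤ 4 := by
  have hinj : Function.Injective
      (fun q : SL(2, ℤ) ⧸ CongruenceSubgroup.Gamma0 2 => firstCol q.out) := by
    intro q₁ q₂ h
    have := inv_mul_mem_of_firstCol_eq h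
    rw [← QuotientGroup.eq] at this
    simpa using this
  have := Nat.card_le_card_of_injective _ hinj
  simpa [Subgroup.index, Nat.card_prod] using this

theorem result (f : CuspForm (CongruenceSubgroup.Gamma0 2) 2) : f = 0 := by
  have hz : (ModularFormClass.modularForm f :
      ModularForm (CongruenceSubgroup.Gamma0 2) 2) = 0 := by
    apply ModularForm.sturm_bound_Gamma0 2
    intro n hn
    have hidx := index_Gamma0_two_le
    have hn0 : n = 0 := by
      have : ((2 : ℤ) * ((CongruenceSubgroup.Gamma0 2).index : ℤ)).toNat / 12 = 0 := by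
        omega
      omega
    subst hn0
    exact CuspFormClass.qExpansion_coeff_zero f one_pos
      (CongruenceSubgroup.one_mem_strictPeriods_Gamma0 2)
  ext z
  have := congrArg (fun g : ModularForm (CongruenceSubgroup.Gamma0 2) 2 => g z) hz
  simpa using this

end Fermat.Agent.S07
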