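-- Statement S08: every weight-2 cusp form of level Γ₀(1) is zero.
-- Proof: Sturm bound (proved prelude lemma) + Γ₀(1) = SL₂(ℤ) has index 1.
import Fermat.Statements.S08
import Fermat.Prelude.Thm_ModularForm_sturm_bound_Gamma0
import Fermat.Prelude.Thm_CongruenceSubgroup_one_mem_strictPeriods_Gamma0

set_option autoImplicit false
open WeierstrassCurve WeierstrassCurve.Affine WeierstrassCurve.Affine.Point
open CuspForm ModularFormClass UpperHalfPlane
open ModularForm

namespace Fermat.Agent.S08

open scoped MatrixGroups

theorem Gamma0_one_eq_top : CongruenceSubgroup.Gamma0 1 = ⊤ := by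
  ext g
  simp only [CongruenceSubgroup.Gamma0_mem, Subgroup.mem_top, iff_true]
  exact Subsingleton.elim _ _

theorem index_Gamma0_one : (CongruenceSubgroup.Gamma0 1).index = 1 := by
  rw [Gamma0_one_eq_top, Subgroup.index_top]

theorem result (f : CuspForm (CongruenceSubgroup.Gamma0 1) 2) : f = 0 := by
  have hz : (ModularFormClass.modularForm f :
      ModularForm (CongruenceSubgroup.Gamma0 1) 2) = 0 := by
    apply ModularForm.sturm_bound_Gamma0 1
    intro n hn
    have hidx := index_Gamma0_one
    have hn0 : n = 0 := by
      have : ((2 : ℤ) * ((CongruenceSubgroup.Gamma0 1).index : ℤ)).toNat / 12 = 0 := by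
        omega
      omega
    subst hn0
    exact CuspFormClass.qExpansion_coeff_zero f one_pos
      (CongruenceSubgroup.one_mem_strictPeriods_Gamma0 1)
  ext z
  have := congrArg (fun g : ModularForm (CongruenceSubgroup.Gamma0 1) 2 => g z) hz
  simpa using this

end Fermat.Agent.S08
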