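import Fermat.Statements.S10
import Fermat.Agent.FLTSmall.Assembly
import Fermat.Agent.FLTSmall.SophieGermain
import Fermat.Agent.FLTSmall.PID
import Fermat.Agent.FLTSmall.KL.K5
import Fermat.Agent.FLTSmall.KL.K7
import Fermat.Agent.FLTSmall.KL.K13

set_option autoImplicit false
open WeierstrassCurve WeierstrassCurve.Affine WeierstrassCurve.Affine.Point
open CuspForm ModularFormClass UpperHalfPlane
open FreyPackage

namespace Fermat.Agent.S10

open Fermat.Agent.FLTSmall in
/-- Fermat's Last Theorem for coprime triples, exponent `5`. -/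
theorem flt_five (a b c : ℤ) (ha0 : a ≠ 0) (hb0 : b ≠ 0) (hc0 : c ≠ 0) (hcop : IsCoprime a b) :
    a ^ 5 + b ^ 5 ≠ c ^ 5 := by
  have : Fact (Nat.Prime 5) := ⟨by norm_num⟩
  have : IsCyclotomicExtension {5} ℚ (CyclotomicField 5 ℚ) :=
    CyclotomicField.isCyclotomicExtension 5 ℚ
  have : NumberField (CyclotomicField 5 ℚ) := IsCyclotomicExtension.numberField {5} ℚ _
  exact flt_coprime_of_pid_of_kummer 5 (by norm_num) (fun H h => caseI_five H h)
    (CyclotomicField 5 ℚ) (IsCyclotomicExtension.Rat.five_pid _) (KL.kummerLemma_five _)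
    a b c ha0 hb0 hc0 hcop

open Fermat.Agent.FLTSmall in
/-- Fermat's Last Theorem for coprime triples, exponent `7`. -/
theorem flt_seven (a b c : ℤ) (ha0 : a ≠ 0) (hb0 : b ≠ 0) (hc0 : c ≠ 0) (hcop : IsCoprime a b) :
    a ^ 7 + b ^ 7 ≠ c ^ 7 := by
  have : Fact (Nat.Prime 7) := ⟨by norm_num⟩
  have : IsCyclotomicExtension {7} ℚ (CyclotomicField 7 ℚ) :=
    CyclotomicField.isCyclotomicExtension 7 ℚ
  have : NumberField (CyclotomicField 7 ℚ) := IsCyclotomicExtension.numberField {7} ℚ _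
  exact flt_coprime_of_pid_of_kummer 7 (by norm_num) (fun H h => caseI_seven H h)
    (CyclotomicField 7 ℚ) (seven_pid _) (KL.kummerLemma_seven _)
    a b c ha0 hb0 hc0 hcop

open Fermat.Agent.FLTSmall in
/-- Fermat's Last Theorem for coprime triples, exponent `13`. -/
theorem flt_thirteen (a b c : ℤ) (ha0 : a ≠ 0) (hb0 : b ≠ 0) (hc0 : c ≠ 0)
    (hcop : IsCoprime a b) : a ^ 13 + b ^ 13 ≠ c ^ 13 := by
  have : Fact (Nat.Prime 13) := ⟨by norm_num⟩
  have : IsCyclotomicExtension {13} ℚ (CyclotomicField 13 ℚ) :=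
    CyclotomicField.isCyclotomicExtension 13 ℚ
  have : NumberField (CyclotomicField 13 ℚ) := IsCyclotomicExtension.numberField {13} ℚ _
  exact flt_coprime_of_pid_of_kummer 13 (by norm_num) (fun H h => caseI_thirteen H h)
    (CyclotomicField 13 ℚ) (thirteen_pid _) (KL.kummerLemma_thirteen _)
    a b c ha0 hb0 hc0 hcop

theorem result (P : FreyPackage) (hp : P.p = 5 ∨ P.p = 7 ∨ P.p = 13) : ¬ HasGaloisStableCofixedLine (K := AlgebraicClosure ℚ) ℚ P.freyCurve P.p := by
  exfalso
  rcases hp with hp | hp | hp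
  · exact Fermat.Agent.FLTSmall.no_freyPackage_of_flt_coprime P hp flt_five
  · exact Fermat.Agent.FLTSmall.no_freyPackage_of_flt_coprime P hp flt_seven
  · exact Fermat.Agent.FLTSmall.no_freyPackage_of_flt_coprime P hp flt_thirteen

end Fermat.Agent.S10
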