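import Fermat.Statements.S11
import Fermat.Agent.FLTSmall.Assembly
import Fermat.Agent.FLTSmall.SophieGermain
import Fermat.Agent.FLTSmall.Kummer11
import Fermat.Agent.FLTSmall.PID

set_option autoImplicit false
open WeierstrassCurve WeierstrassCurve.Affine WeierstrassCurve.Affine.Point
open CuspForm ModularFormClass UpperHalfPlane
open FreyPackage

namespace Fermat.Agent.S11

theorem result (P : FreyPackage) (hp : P.p = 11) : ¬ HasGaloisStableCofixedLine (K := AlgebraicClosure ℚ) ℚ P.freyCurve P.p := by
  exfalso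
  have : Fact (Nat.Prime 11) := ⟨by norm_num⟩
  have : IsCyclotomicExtension {11} ℚ (CyclotomicField 11 ℚ) :=
    CyclotomicField.isCyclotomicExtension 11 ℚ
  exact Fermat.Agent.FLTSmall.no_freyPackage_of_flt_coprime P hp
    (Fermat.Agent.FLTSmall.flt_coprime_of_pid_of_kummer 11 (by norm_num)
      (fun H hab => Fermat.Agent.FLTSmall.caseI_eleven H hab)
      (CyclotomicField 11 ℚ) (Fermat.Agent.FLTSmall.eleven_pid _)
      (fun u hu => Fermat.Agent.FLTSmall.kummer_eleven _ u hu))

end Fermat.Agent.S11
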