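import Fermat.Statements.S21
import Fermat.Agent.S20
import Fermat.Agent.S21.Prim
import Fermat.Agent.S21.Parab
import Fermat.Agent.S21.Inj
import Fermat.Agent.S21.HomBound

set_option autoImplicit false
open ModularCurve

namespace Fermat.Agent.S21

open UpperHalfPlane CongruenceSubgroup ModularCurve.Period

theorem result (N : ℕ) [NeZero N] :
    Function.Injective (ModularCurve.periodHomPair N)
      ∧ LinearMap.range (ModularCurve.periodHomPair N)
          = ModularCurve.Period.parabolicHoms ℂ (CongruenceSubgroup.Gamma0 N) ℂ := by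
  have hinj : Function.Injective (ModularCurve.periodHomPair N) := by
    rw [← LinearMap.ker_eq_bot, LinearMap.ker_eq_bot']
    rintro ⟨f, g⟩ hfg
    rw [periodHomPair_eq] at hfg
    simp only [LinearMap.coprod_apply, LinearMap.comp_apply, LinearMap.add_apply,
      LinearMap.sub_apply, LinearMap.id_apply] at hfg
    have e1 : pml N f = periodMap N f := rfl
    have e2 : pml N g = periodMap N g := rfl
    rw [e1, e2] at hfg
    have hι := congrArg (charInvolution N ℂ ℂ) hfg
    simp only [map_add, map_sub, map_zero, charInvolution_charInvolution] at hι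
    have hf : f = 0 := by
      apply eq_zero_of_add
      have h2 : (2 : ℂ) • (periodMap N f + charInvolution N ℂ ℂ (periodMap N f)) = 0 := by
        rw [two_smul]
        have := congrArg₂ (· + ·) hfg hι
        simp only [add_zero] at this
        rw [← this]; abel
      exact (smul_eq_zero.mp h2).resolve_left two_ne_zero
    have hg : g = 0 := by
      apply eq_zero_of_sub
      have h2 : (2 : ℂ) • (periodMap N g - charInvolution N ℂ ℂ (periodMap N g)) = 0 := by
        rw [two_smul]
        have := congrArg₂ (· - ·) hfg hι
        simp only [sub_zero] at this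
        rw [← this]; abel
      exact (smul_eq_zero.mp h2).resolve_left two_ne_zero
    rw [hf, hg]; rfl
  refine ⟨hinj, ?_⟩
  have := finite_parabolicHoms N
  have hle : LinearMap.range (periodHomPair N) ≤ parabolicHoms ℂ (Gamma0 N) ℂ := by
    rintro _ ⟨⟨f, g⟩, rfl⟩
    rw [periodHomPair_eq]
    simp only [LinearMap.coprod_apply, LinearMap.comp_apply, LinearMap.add_apply,
      LinearMap.sub_apply, LinearMap.id_apply]
    have e1 : pml N f = periodMap N f := rfl
    have e2 : pml N g = periodMap N g := rfl
    rw [e1, e2]
    exact add_mem (add_mem (periodMap_mem_parabolicHoms N f)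
      (charInvolution_mem_parabolicHoms N ℂ ℂ (periodMap_mem_parabolicHoms N f)))
      (sub_mem (periodMap_mem_parabolicHoms N g)
      (charInvolution_mem_parabolicHoms N ℂ ℂ (periodMap_mem_parabolicHoms N g)))
  have hfin2 : Module.Finite ℂ (CuspForm (Gamma0 N) 2 × CuspForm (Gamma0 N) 2) :=
    Module.Finite.of_injective ((periodHomPair N).codRestrict _
      (fun x => hle (LinearMap.mem_range_self _ x)))
      (fun x y hxy => hinj (congrArg Subtype.val hxy))
  have hfin1 : Module.Finite ℂ (CuspForm (Gamma0 N) 2) :=
    Module.Finite.of_injective (LinearMap.inl ℂ (CuspForm (Gamma0 N) 2) (CuspForm (Gamma0 N) 2))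
      LinearMap.inl_injective
  apply Submodule.eq_of_le_of_finrank_le hle
  rw [LinearMap.finrank_range_of_inj hinj, Module.finrank_prod]
  have h1 := finrank_parabolicHoms_le N
  rw [← Fermat.Agent.S20.result N] at h1
  have h2 : (Module.finrank ℂ (parabolicHoms ℂ (Gamma0 N) ℂ) : ℚ) ≤
    ((Module.finrank ℂ (CuspForm (Gamma0 N) 2) + Module.finrank ℂ (CuspForm (Gamma0 N) 2) : ℕ) : ℚ) := by
    push_cast; linarith
  exact_mod_cast h2

end Fermat.Agent.S21
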