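import Fermat.Statements.S22
import Fermat.Agent.S22.Alg
import Fermat.Agent.S22.LatFG
import Fermat.Agent.S22.LatHecke
import Fermat.Agent.S22.LatSep

set_option autoImplicit false
open CuspForm

namespace Fermat.Agent.S22

theorem result (N : ℕ) [NeZero N] (k : ℤ) (S : Set ℕ) :
    Module.Finite ℤ (CuspForm.heckeAlgebra N k S) := by
  rcases le_or_gt k 1 with hk | hk
  · have hsub : Subsingleton (CuspForm (CongruenceSubgroup.Gamma0 N) k) :=
      ⟨fun f g => by rw [cuspForm_eq_zero_of_le_one N hk f, cuspForm_eq_zero_of_le_one N hk g]⟩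
    have : Subsingleton (Module.End ℂ (CuspForm (CongruenceSubgroup.Gamma0 N) k)) :=
      ⟨fun a b => LinearMap.ext fun x => Subsingleton.elim _ _⟩
    infer_instance
  · obtain ⟨w, rfl⟩ : ∃ w : ℕ, k = (w : ℤ) + 2 := ⟨(k - 2).toNat, by omega⟩
    exact finite_of_lattice (CuspForm.heckeGenerators N ((w : ℤ) + 2) S) (Lat N w) (Lat_fg N w)
      (Lat_stable N w S) (Lat_sep N w)

end Fermat.Agent.S22
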