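import Fermat.Statements.S30
import Fermat.Agent.GR.Provider
import Fermat.Agent.GR.Lim
import Fermat.Agent.GR.Pseudo

set_option autoImplicit false
open Polynomial
open CuspForm

namespace Fermat.Agent.S30

open Fermat.Agent.GR IsLocalRing

/-- The adic representation attached to a homomorphism to `M₂(𝒪)`. -/
noncomputable def repOfMatrix {𝒪 : Type} [CommRing 𝒪] [IsLocalRing 𝒪]
    (M : GQ →* Matrix (Fin 2) (Fin 2) 𝒪)
    (hcont : ∀ n : ℕ, ∃ L : IntermediateField ℚ Qb, FiniteDimensional ℚ L ∧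
      ∀ σ : GQ, (∀ z ∈ L, σ z = z) → ∀ i j, (M σ - 1) i j ∈ maximalIdeal 𝒪 ^ n) :
    GaloisRepAdic 𝒪 where
  V := Fin 2 → 𝒪
  finrank_eq := by simp
  ρ := (Matrix.toLinAlgEquiv' : Matrix (Fin 2) (Fin 2) 𝒪 ≃ₐ[𝒪] _).toAlgHom.toRingHom.toMonoidHom.comp M
  isAdicContinuous := by
    intro n
    obtain ⟨L, hL, h⟩ := hcont n
    refine ⟨L, hL, fun σ hσ v => ?_⟩
    have h1 := h σ hσ
    have : (Matrix.toLinAlgEquiv' (M σ)) v - v = (M σ - 1).mulVec v := by
      simp [Matrix.sub_mulVec]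
    change (Matrix.toLinAlgEquiv' (M σ)) v - v ∈ _
    rw [this]
    have h2 : (M σ - 1).mulVec v = ∑ i, ((M σ - 1).mulVec v i) • (Pi.single i (1 : 𝒪) : Fin 2 → 𝒪) := by
      ext k
      simp [Finset.sum_apply, Pi.single_apply]
    rw [h2]
    refine Submodule.sum_mem _ fun i _ => Submodule.smul_mem_smul ?_ trivial
    rw [Matrix.mulVec, dotProduct]
    exact Ideal.sum_mem _ fun j _ => Ideal.mul_mem_right _ _ (h1 i j)

theorem result :
    ∀ (p : ℕ) [Fact p.Prime] (N : ℕ) [NeZero N] (S : Finset ℕ)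
      (_hpS : p ∈ S) (_hNS : ∀ q : ℕ, q.Prime → q ∣ N → q ∈ S)
      (𝒪' : Type) [CommRing 𝒪'] [IsDomain 𝒪'] [IsDiscreteValuationRing 𝒪']
      [IsAdicComplete (IsLocalRing.maximalIdeal 𝒪') 𝒪'] [Finite (IsLocalRing.ResidueField 𝒪')]
      [CharZero 𝒪'] (_hp𝒪' : (p : 𝒪') ∈ IsLocalRing.maximalIdeal 𝒪')
      (χ : CuspForm.heckeAlgebra N 2 (↑S : Set ℕ) →+* 𝒪'),
      ∃ (𝒪'' : Type) (_ : CommRing 𝒪'') (_ : IsDomain 𝒪'') (_ : IsDiscreteValuationRing 𝒪'')
        (_ : IsAdicComplete (IsLocalRing.maximalIdeal 𝒪'') 𝒪'')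
        (_ : Finite (IsLocalRing.ResidueField 𝒪'')) (_ : CharZero 𝒪'')
        (_ : Algebra 𝒪' 𝒪'') (_ : Module.Finite 𝒪' 𝒪'') (_ : IsLocalHom (algebraMap 𝒪' 𝒪'')),
      Function.Injective (algebraMap 𝒪' 𝒪'') ∧
      ∃ ρ : GaloisRepAdic 𝒪'',
        (∀ (ℓ : ℕ) (hℓ : ℓ.Prime) (hℓN : ¬ ℓ ∣ N) (hℓS : ℓ ∉ (↑S : Set ℕ)),
          ∀ A : ValuationSubring (AlgebraicClosure ℚ), A.LiesOverPrime ℓ →
            ∀ σ : AlgebraicClosure ℚ ≃ₐ[ℚ] AlgebraicClosure ℚ, A.IsFrobeniusAt σ ℓ →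
              LinearMap.charpoly (ρ.ρ σ) =
                X ^ 2 - C (algebraMap 𝒪' 𝒪'' (χ (CuspForm.heckeAlgebra.T hℓ hℓN hℓS))) * X
                  + C ((ℓ : 𝒪''))) ∧
        (∀ q : ℕ, q.Prime → ¬ q ∣ N → q ≠ p → ρ.IsUnramifiedAt q) := by
  intro p _ N _ S hpS hNS 𝒪' _ _ _ _ _ _ hp χ
  obtain ⟨𝔗⟩ := exists_tower p N
  obtain ⟨δ, hδ⟩ := exists_cyclo p 𝒪' hp
  obtain ⟨c, hc, hcζ⟩ := exists_complexConj
  obtain ⟨D⟩ := exists_traceData 𝔗 S hpS hNS hp χ δ hδ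
  have := D.nontriv
  obtain ⟨M, s, htr, hdet, hcont⟩ := exists_matrix_rep D.tf D.r δ D.t D.rel c hc (hδ.conj hp hcζ)
  have hcont' : ∀ n : ℕ, ∃ L : IntermediateField ℚ Qb, FiniteDimensional ℚ L ∧
      ∀ σ : GQ, (∀ z ∈ L, σ z = z) → ∀ i j, (M σ - 1) i j ∈ maximalIdeal 𝒪' ^ n := by
    intro n
    obtain ⟨L, hL, h⟩ := D.cont (n + s)
    exact ⟨L, hL, fun σ hσ => hcont n σ (h σ hσ)⟩
  -- uniqueness of `t`
  have huniq : ∀ (g g' : GQ), D.r g = D.r g' → δ g = δ g' → D.t g = D.t g' := by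
    intro g g' h1 h2
    obtain ⟨x, hx⟩ := exists_ne (0 : D.X)
    have e1 := D.rel g x
    have e2 := D.rel g' x
    rw [h1, h2] at e1
    have e3 : (D.t g' - D.t g) • D.r g' x = 0 := by
      rw [sub_smul]
      have := congrArg₂ (· - ·) e1 e2
      simp only [sub_self] at this
      rw [← this]; abel
    rcases D.tf _ _ e3 with h | h
    · exact (sub_eq_zero.mp h).symm
    · exfalso
      apply hx
      have : D.r g'⁻¹ (D.r g' x) = x := by
        rw [← Module.End.mul_apply, ← map_mul, inv_mul_cancel, map_one, Module.End.one_apply]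
      rw [← this, h, map_zero]
  refine ⟨𝒪', inferInstance, inferInstance, inferInstance, inferInstance, inferInstance,
    inferInstance, Algebra.id 𝒪', inferInstance, ?_, Function.injective_id,
    repOfMatrix M hcont', ?_, ?_⟩
  · exact ⟨fun a ha => ha⟩
  · intro ℓ hℓ hℓN hℓS A hA σ hσ
    have hℓp : ℓ ≠ p := fun h => hℓS (h ▸ hpS)
    change LinearMap.charpoly (Matrix.toLinAlgEquiv' (M σ)) = _
    have h1 : LinearMap.charpoly (Matrix.toLinAlgEquiv' (M σ)) = (M σ).charpoly := by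
      exact Matrix.charpoly_toLin' (M σ)
    rw [h1, Matrix.charpoly_fin_two, htr, hdet, D.frob ℓ hℓ hℓN hℓS A hA σ hσ,
      hδ.frob hp hℓ hℓp hA hσ]
    rfl
  · intro q hq hqN hqp P hP σ hσ
    have hr : D.r σ = 1 := D.unram q hq hqN hqp P hP σ hσ
    have hd : δ σ = 1 := hδ.inertia hp hq hqp hP hσ
    have hM : M σ = 1 := by
      have hz : ∀ i j, (M σ - 1) i j = 0 := by
        intro i j
        have hall : ∀ n, (M σ - 1) i j ∈ maximalIdeal 𝒪' ^ n := by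
          intro n
          refine hcont n σ (fun g h => ?_) i j
          rw [huniq (g * σ * h) (g * h) (by simp [map_mul, hr]) (by simp [map_mul, hd]), sub_self]
          exact zero_mem _
        have hH : IsHausdorff (maximalIdeal 𝒪') 𝒪' := inferInstance
        apply hH.haus
        intro n
        rw [SModEq.zero]
        simpa using hall n
      ext i j
      have := hz i j
      simpa [sub_eq_zero] using this
    change Matrix.toLinAlgEquiv' (M σ) = 1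
    rw [hM, map_one]

end Fermat.Agent.S30
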