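import Fermat.Statements.S34
import Fermat.Agent.S34.HC
import Fermat.Agent.S34.Wire

set_option autoImplicit false
set_option autoImplicit false
open IsLocalRing
open CuspForm CuspForm.HeckeGaloisRepDatum

namespace Fermat.Agent.S34

theorem result
    {𝒪 : Type} [CommRing 𝒪] [IsDomain 𝒪] [IsDiscreteValuationRing 𝒪]
    [IsAdicComplete (maximalIdeal 𝒪) 𝒪] [Finite (ResidueField 𝒪)] [CharZero 𝒪]
    {p : ℕ} (hp : p.Prime) (hp𝒪 : (p : 𝒪) ∈ maximalIdeal 𝒪)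
    {N : ℕ} [NeZero N] {S : Finset ℕ} (hpS : p ∈ S) (hNS : ∀ q : ℕ, q.Prime → q ∣ N → q ∈ S)
    {θ : CuspForm.heckeAlgebra N 2 (↑S : Set ℕ) →+* ResidueField 𝒪}
    {T : Type} [CommRing T] [IsLocalRing T] [IsNoetherianRing T]
    [IsAdicComplete (maximalIdeal T) T] [Algebra 𝒪 T] [IsLocalHom (algebraMap 𝒪 T)]
    [Module.Finite 𝒪 T] [Module.Free 𝒪 T]
    (H : CuspForm.HeckeGaloisRepDatum N (↑S : Set ℕ) 𝒪 θ T)
    (q : ℕ) (hq : q.Prime) (hqp : q ≠ p) (hqN : q ∣ N) (hq2 : ¬ q ^ 2 ∣ N) :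
    H.ρ.IsUnipotentOnInertiaAt q := by
  obtain ⟨M₀, hM₀⟩ := hqN
  have hM₀0 : M₀ ≠ 0 := by
    rintro rfl
    exact NeZero.ne N (by rw [hM₀, mul_zero])
  have hqM₀ : ¬ q ∣ M₀ := by
    rintro ⟨c, hc⟩
    exact hq2 ⟨c, by rw [hM₀, hc]; ring⟩
  obtain ⟨M, hM0, hMM, HU⟩ := exists_unipAt hq hM₀0 hqM₀
  have : NeZero (q * M) := ⟨mul_ne_zero hq.ne_zero hM0⟩
  exact unipotent_of_unipAt hp hp𝒪 hpS hNS H q hq hqp (q * M)
    (by rw [hM₀]; exact mul_dvd_mul_left q hMM) HU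

end Fermat.Agent.S34
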