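import Fermat.Statements.S37
import Fermat.Agent.S37.KLPlus
import Fermat.Agent.S37.Frob

set_option autoImplicit false
open ModularCurve

namespace Fermat.Agent.S37

theorem result (N p : ℕ) [NeZero N] (hcomm : ModularCurve.HeckeOperatorsCommuteBar N) : letI := ModularCurve.heckeModuleBar N; ∀ (_ : SMulCommClass (AlgebraicClosure ℚ ≃ₐ[ℚ] AlgebraicClosure ℚ) ModularCurve.HeckeAlg (ModularCurve.JZero N)), ModularCurve.SpecializationExists (K := ℚ) (L := AlgebraicClosure ℚ) N p (ModularCurve.JZero N) := by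
  letI := ModularCurve.heckeModuleBar N
  intro _ ℓ hℓ hℓNp A hA
  obtain ⟨σ₀, hσ₀⟩ := exists_isFrobeniusAt A hℓ hA
  have hℓN : ¬ ℓ ∣ N := fun h => hℓNp (h.mul_right p)
  have hℓp : ¬ ℓ ∣ p := fun h => hℓNp (h.mul_left N)
  refine specialization_of_KL p (ModularCurve.JZero N) A ℓ hℓ σ₀ hσ₀ ?_
  rintro z hz ⟨n, hn⟩
  exact KL_plus N hcomm ℓ hℓ hℓN A hA σ₀ hσ₀ (p ^ n) (fun h => hℓp (hℓ.dvd_of_dvd_pow h)) z hz hn

end Fermat.Agent.S37
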