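import Fermat.Statements.S42
import Fermat.Agent.S29.FreyGlue

set_option autoImplicit false
set_option linter.style.haveILetI false
open FreyPackage

namespace Fermat.Agent.S42

open Fermat.Agent.S29 in
theorem result (P : FreyPackage) :
    ∀ M : ℕ, 0 < M → P.EigenformResidualAttachmentAt M := by
  intro M hM g hg 𝔪 h𝔪 hp𝔪
  haveI : NeZero M := ⟨hM.ne'⟩
  haveI := h𝔪
  letI : Field (Zbar ⧸ 𝔪) := Ideal.Quotient.field 𝔪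
  have hpp : P.p.Prime := P.pp
  haveI : Fact P.p.Prime := ⟨hpp⟩
  have hcast : ((P.p : ℕ) : Zbar ⧸ 𝔪) = 0 := by
    have : Ideal.Quotient.mk 𝔪 (P.p : Zbar) = 0 := Ideal.Quotient.eq_zero_iff_mem.mpr hp𝔪
    simpa using this
  haveI : CharP (Zbar ⧸ 𝔪) P.p := by
    obtain ⟨q, hq⟩ := CharP.exists (Zbar ⧸ 𝔪)
    have hdvd : q ∣ P.p := (CharP.cast_eq_zero_iff (Zbar ⧸ 𝔪) q P.p).mp hcast
    rcases (Nat.dvd_prime hpp).mp hdvd with h1 | h1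
    · subst h1
      exact absurd rfl (CharP.char_ne_one (Zbar ⧸ 𝔪) 1)
    · rw [← h1]; exact hq
  letI : Algebra (ZMod P.p) (Zbar ⧸ 𝔪) := ZMod.algebra _ P.p
  obtain ⟨ρ, hatt, -⟩ := core hg hpp (k := Zbar ⧸ 𝔪) (Ideal.Quotient.mk 𝔪)
  obtain ⟨L₁, hL₁, h1⟩ := ρ.factorsThroughFiniteLevel
  obtain ⟨L₂, hL₂, h2⟩ := frey_level P
  haveI := hL₁
  haveI := hL₂
  obtain ⟨F, i1, i2, i3, i4, i5, hF⟩ := exists_galois_numberField (L₁ ⊔ L₂)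
  have hne : ∀ ℓ : ℕ, ℓ.Prime → ℓ ≠ P.p → ((ℓ : ℕ) : Zbar ⧸ 𝔪) ≠ 0 := by
    intro ℓ hℓ hℓp h0
    have := (CharP.cast_eq_zero_iff (Zbar ⧸ 𝔪) P.p ℓ).mp h0
    exact hℓp ((Nat.prime_dvd_prime_iff_eq hpp hℓ).mp this).symm
  refine ⟨Zbar ⧸ 𝔪, inferInstance, inferInstance, ρ.V, inferInstance, inferInstance, ρ.ρ,
    Ideal.Quotient.mk 𝔪, F, i1, i2, i3, i4, i5, ?_, ρ.finrank_eq, ?_, ?_, ?_⟩
  · intro x hx
    exact Ideal.Quotient.eq_zero_iff_mem.mpr hx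
  · intro σ hσ
    have hfix := hF σ hσ
    refine ⟨?_, ?_⟩
    · exact h2 σ fun x hx => hfix x ((le_sup_right : L₂ ≤ L₁ ⊔ L₂) hx)
    · exact h1 σ fun x hx => hfix x ((le_sup_left : L₁ ≤ L₁ ⊔ L₂) hx)
  · intro ℓ hℓ hℓM hℓp A hA τ hτ
    obtain ⟨a, ha, hchar⟩ := hatt ℓ hℓ hℓM (hne ℓ hℓ hℓp) A hA τ hτ
    exact ⟨a, ha, (trace_det_of_charpoly ρ.finrank_eq (ρ.ρ τ) _ _ hchar).1⟩
  · intro ℓ hℓ hℓM hℓp A hA τ hτ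
    obtain ⟨a, ha, hchar⟩ := hatt ℓ hℓ hℓM (hne ℓ hℓ hℓp) A hA τ hτ
    exact (trace_det_of_charpoly ρ.finrank_eq (ρ.ρ τ) _ _ hchar).2

end Fermat.Agent.S42
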