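import Fermat.Statements.S49
import Fermat.Agent.S49.Integral
-- import your own Fermat.Agent.* helpers here

set_option autoImplicit false
open CuspForm EisensteinWeightOne CongruenceSubgroup ModularFormClass
open FLT FLT.AbstractIntegralStructure

namespace Fermat.Agent.S49

/-- A normalised simultaneous eigenvector is a normalised eigenform. -/
theorem isNormalizedEigenform_of_eigenvector {N : ℕ} [NeZero N] (μ : AA N →ₐ[ℂ] ℂ) (g : V N)
    (hg1 : qc N 1 g = 1) (hg : ∀ s : AA N, (s : Module.End ℂ (V N)) g = μ s • g) :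
    g.IsNormalizedEigenform ∧
      ∀ (ℓ : ℕ) (hℓ : ℓ.Prime) (hℓN : ¬ ℓ ∣ N),
        qCoeff g ℓ = μ (incl N (heckeAlgebra.T hℓ hℓN (Set.notMem_empty _))) := by
  have hT : ∀ (ℓ : ℕ) (hℓ : ℓ.Prime) (hℓN : ¬ ℓ ∣ N) (n : ℕ),
      qc N (n * ℓ) g + (if ℓ ∣ n then (ℓ : ℂ) * qc N (n / ℓ) g else 0) =
        μ (incl N (heckeAlgebra.T hℓ hℓN (Set.notMem_empty _))) * qc N n g := by
    intro ℓ hℓ hℓN n
    have h1 := hg (incl N (heckeAlgebra.T hℓ hℓN (Set.notMem_empty _)))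
    rw [incl_coe, heckeAlgebra.coe_T] at h1
    rw [← qc_heckeT hℓ hℓN, h1, map_smul, smul_eq_mul]
  have hU : ∀ (ℓ : ℕ) (hℓ : ℓ.Prime) (hℓN : ℓ ∣ N) (n : ℕ),
      qc N (n * ℓ) g =
        μ (incl N (heckeAlgebra.U hℓ hℓN (Set.notMem_empty _))) * qc N n g := by
    intro ℓ hℓ hℓN n
    have h1 := hg (incl N (heckeAlgebra.U hℓ hℓN (Set.notMem_empty _)))
    rw [incl_coe, heckeAlgebra.coe_U] at h1
    rw [← qc_heckeU hℓ hℓN, h1, map_smul, smul_eq_mul]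
  have hTℓ : ∀ (ℓ : ℕ) (hℓ : ℓ.Prime) (hℓN : ¬ ℓ ∣ N),
      qc N ℓ g = μ (incl N (heckeAlgebra.T hℓ hℓN (Set.notMem_empty _))) := by
    intro ℓ hℓ hℓN
    have h1 := hT ℓ hℓ hℓN 1
    rw [if_neg (by simpa using hℓ.one_lt.ne'), hg1] at h1
    simpa using h1
  have hUℓ : ∀ (ℓ : ℕ) (hℓ : ℓ.Prime) (hℓN : ℓ ∣ N),
      qc N ℓ g = μ (incl N (heckeAlgebra.U hℓ hℓN (Set.notMem_empty _))) := by
    intro ℓ hℓ hℓN
    have h1 := hU ℓ hℓ hℓN 1
    rw [hg1] at h1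
    simpa using h1
  have heig : FormalHecke.IsEigensystem (fun ℓ : ℕ => if ℓ ∣ N then (0 : ℂ) else (ℓ : ℂ))
      (fun n => qc N n g) := by
    refine ⟨hg1, fun ℓ hℓ n => ?_⟩
    by_cases hℓN : ℓ ∣ N
    · simp only [if_pos hℓN, zero_mul, add_zero]
      rw [hUℓ ℓ hℓ hℓN, mul_comm ℓ n]
      exact hU ℓ hℓ hℓN n
    · simp only [if_neg hℓN]
      rw [hTℓ ℓ hℓ hℓN, mul_comm ℓ n, ← hT ℓ hℓ hℓN n]
      split_ifs <;> simp
  have hrec := isRecursive_of_isEigensystem heig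
  refine ⟨⟨hg1, hrec.2.1, ?_, ?_⟩, hTℓ⟩
  · intro p r hp hpN
    have := hrec.2.2 p r hp
    simp only [if_neg hpN] at this
    exact this
  · intro p r hp hpN
    have := hrec.2.2 p r hp
    simp only [if_pos hpN, zero_mul, sub_zero] at this
    exact this

theorem result
    {N : ℕ} [NeZero N] (h : CuspForm.HasIntegralBasis N) {a : ℕ → ℤ}
    (heig : FormalHecke.IsEigensystem
      (fun ℓ => if ℓ ∣ N then 0 else ((chiNegThree ℓ : ℤ) : ℤ)) a)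
    (hreal : CuspForm.IsLatticeRealized N a) :
    ∃ (f : CuspForm (Gamma0 N) 2) (_ : f.IsNormalizedEigenform)
      (𝔪' : Ideal (integralClosure ℤ ℂ)), 𝔪'.IsMaximal ∧
      ((3 : ℕ) : integralClosure ℤ ℂ) ∈ 𝔪' ∧
      ∀ (ℓ : ℕ) (_ : ℓ.Prime) (_ : ¬ ℓ ∣ N),
        ∃ c : integralClosure ℤ ℂ, (c : ℂ) = ModularFormClass.qCoeff f ℓ ∧
          c - (a ℓ : integralClosure ℤ ℂ) ∈ 𝔪' := by
  obtain ⟨f, -, af, haf, hbr⟩ := hreal
  have hcong : ∀ n, (3 : ℤ) ∣ af n - a n := by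
    intro n
    have := dvd_add (hbr n) (coeff_bridgeProduct a n)
    simpa using this
  have haf' : ∀ n, (af n : ℂ) = qc N n f := haf
  have hmax : (mIdeal N f).IsMaximal := mIdeal_isMaximal haf' hcong heig
  have hprime : (mIdeal N f).IsPrime := hmax.isPrime
  obtain ⟨μ, hμ⟩ := exists_character (incl N) (incl_injective N) (mIdeal N f)
  obtain ⟨g, hg1, hg⟩ := exists_eigenvector N μ
  obtain ⟨hnorm, hcoeff⟩ := isNormalizedEigenform_of_eigenvector μ g hg1 hg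
  let lam : TT N →+* ℂ := (μ : AA N →+* ℂ).comp (incl N)
  have hint : ∀ t, IsIntegral ℤ (lam t) := fun t => map_isIntegral_int lam (isIntegral_TT h t)
  obtain ⟨𝔪', hmax', hover⟩ := exists_maximal_over lam hint (mIdeal N f) hμ
  have h1 : (3 : ℤ) ∣ af 1 - 1 := by
    have := hcong 1
    rwa [heig.1] at this
  refine ⟨g, hnorm, 𝔪', hmax', ?_, ?_⟩
  · apply hover ((3 : ℤ) : TT N) ((intCast_mem_mIdeal_iff haf' h1 3).mpr dvd_rfl)
    rw [map_intCast, SubringClass.coe_natCast]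
    norm_num
  · intro ℓ hℓ hℓN
    refine ⟨⟨lam (heckeAlgebra.T hℓ hℓN (Set.notMem_empty _)), hint _⟩,
      (hcoeff ℓ hℓ hℓN).symm, ?_⟩
    apply hover _ (T_sub_mem haf' hcong heig hℓ hℓN)
    simp

end Fermat.Agent.S49
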