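import Fermat.Statements.S52
import Fermat.Agent.S52.ThmC
import Fermat.Agent.S52.ThmE

set_option autoImplicit false
open WeierstrassCurve WeierstrassCurve.Affine WeierstrassCurve.Affine.Point
open CuspForm ModularFormClass UpperHalfPlane
open WeierstrassCurve

namespace Fermat.Agent.S52

theorem result (W : WeierstrassCurve ℤ) (hΔ : W.Δ ≠ 0) (hW : W.IsSemistableModel) (h5 : W.ModRepIsIrreducible 5) : ∃ W' : WeierstrassCurve ℤ, W'.Δ ≠ 0 ∧ W'.IsSemistableModel ∧ W'.ModRepIsIrreducible 3 ∧ ∀ ℓ : ℕ, ℓ.Prime → W.IsGoodPrimeFor ℓ → W'.IsGoodPrimeFor ℓ → ℓ ≠ 5 → (5 : ℤ) ∣ (W'.apOfModel ℓ - W.apOfModel ℓ) := by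
  by_cases h3 : W.ModRepIsIrreducible 3
  · exact ⟨W, hΔ, hW, h3, fun ℓ _ _ _ _ => by simp⟩
  obtain ⟨ξ₀, hξ₀⟩ := exists_root_of_not_irreducible W hΔ h3
  have hdisc : W.c₄ ^ 3 - W.c₆ ^ 2 ≠ 0 := by
    rw [← W.c_relation]
    exact mul_ne_zero (by norm_num) hΔ
  obtain ⟨ν, hν, hroot⟩ := exists_nu W.c₄ W.c₆ hdisc ξ₀ hξ₀ (30 * W.Δ) (mul_ne_zero (by norm_num) hΔ)
  have hΔ' := twist5_Δ_ne_zero W hΔ ν
  refine ⟨twist5 W ν, hΔ', twist5_semistable W hΔ hW ν hν, ?_, ?_⟩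
  · by_contra hcon
    obtain ⟨ξ, hξ⟩ := exists_root_of_not_irreducible (twist5 W ν) hΔ' hcon
    rw [twist5_c₄, twist5_c₆] at hξ
    exact hroot ξ hξ
  · intro ℓ hℓ hg hg' hℓ5
    have : Fact ℓ.Prime := ⟨hℓ⟩
    by_cases hdv : (ℓ : ℤ) ∣ ν
    · simp only [apOfModel, twist5_reductionMod W ν ℓ hdv, sub_self, dvd_zero]
    · -- `ℓ ∤ 30`, so `ℓ ≥ 7`
      have h30 : ¬ (ℓ : ℤ) ∣ 30 := fun h => hdv ((h.mul_right _).trans hν)
      have h7 : 7 ≤ ℓ := by
        by_contra hlt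
        rw [not_le] at hlt
        interval_cases ℓ
        · exact absurd hℓ (by norm_num)
        · exact absurd hℓ (by norm_num)
        · exact h30 (by norm_num)
        · exact h30 (by norm_num)
        · exact absurd hℓ (by norm_num)
        · exact hℓ5 rfl
        · exact absurd hℓ (by norm_num)
      have key := card_congr ℓ h7 ((W.c₄ : ℤ) : ZMod ℓ) ((W.c₆ : ℤ) : ZMod ℓ) (((1728 * ν : ℤ)) : ZMod ℓ) ?_ ?_
      · have e1 := card_reductionMod W ℓ (by omega)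
        have e2 := card_reductionMod (twist5 W ν) ℓ (by omega)
        rw [twist5_c₄, twist5_c₆] at e2
        have c1 : ((bc4 W.c₄ W.c₆ (1728 * ν) : ℤ) : ZMod ℓ)
            = bc4 ((W.c₄ : ℤ) : ZMod ℓ) ((W.c₆ : ℤ) : ZMod ℓ) (((1728 * ν : ℤ)) : ZMod ℓ) :=
          map_bc4 (Int.castRingHom (ZMod ℓ)) _ _ _
        have c2 : ((bc6 W.c₄ W.c₆ (1728 * ν) : ℤ) : ZMod ℓ)
            = bc6 ((W.c₄ : ℤ) : ZMod ℓ) ((W.c₆ : ℤ) : ZMod ℓ) (((1728 * ν : ℤ)) : ZMod ℓ) :=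
          fam_map_bc6 (Int.castRingHom (ZMod ℓ)) _ _ _
        rw [c1, c2] at e2
        simp only [apOfModel, traceOfFrobenius, WeierstrassCurve.card]
        rw [e1, e2]
        have hk := key.neg_right
        obtain ⟨k, hk⟩ := hk
        exact ⟨k, by linarith⟩
      · -- discriminant nonzero mod ℓ
        intro h0
        apply hg
        have h1 : (((W.c₄ ^ 3 - W.c₆ ^ 2 : ℤ)) : ZMod ℓ) = 0 := by push_cast; exact h0
        rw [← W.c_relation, ZMod.intCast_zmod_eq_zero_iff_dvd] at h1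
        have hp : Prime (ℓ : ℤ) := Nat.prime_iff_prime_int.mp hℓ
        rcases hp.dvd_or_dvd h1 with h | h
        · exfalso
          have : (ℓ : ℤ) ∣ 30 ^ 6 := h.trans (by norm_num)
          exact h30 (hp.dvd_of_dvd_pow this)
        · exact h
      · intro h0
        apply hg'
        have h1 : ((bD W.c₄ W.c₆ (1728 * ν) : ℤ) : ZMod ℓ) = 0 := by
          rw [← h0]; exact map_bD (Int.castRingHom (ZMod ℓ)) _ _ _
        rw [ZMod.intCast_zmod_eq_zero_iff_dvd] at h1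
        rw [twist5_Δ]
        exact (h1.trans (dvd_pow_self _ (by norm_num))).mul_left _

end Fermat.Agent.S52
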