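import Fermat.Statements.S57
import Fermat.Agent.S57.McmFree
import Fermat.Agent.S57.PowerSeriesSeq
-- import your own Fermat.Agent.* helpers here

set_option autoImplicit false
open Algebra Algebra.PatchingLevel

namespace Fermat.Agent.S57

open IsLocalRing RingTheory.Sequence in
/-- The patched module is free over the power series ring. -/
theorem free_N
    {𝒪 : Type} [CommRing 𝒪] [IsDomain 𝒪] [IsDiscreteValuationRing 𝒪]
    {r : ℕ} {R : Type} [CommRing R] [Algebra 𝒪 R]
    {M : Type} [AddCommGroup M] [Module R M] [Nontrivial M]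
    (L : Algebra.PatchingLevel 𝒪 r R M ⊥) :
    Module.Free (MvPowerSeries (Fin r) 𝒪) L.N ∧ Nontrivial L.N := by
  obtain ⟨ϖ, hϖ⟩ := IsDiscreteValuationRing.exists_irreducible 𝒪
  have hmax : maximalIdeal 𝒪 = Ideal.span {ϖ} := hϖ.maximalIdeal_eq
  have hN : Nontrivial L.N := by
    obtain ⟨m, hm⟩ := exists_ne (0 : M)
    obtain ⟨x, rfl⟩ := L.π_surjective m
    refine ⟨x, 0, ?_⟩
    rintro rfl
    exact hm (map_zero _)
  have hR : Nontrivial R := by
    by_contra h
    rw [not_nontrivial_iff_subsingleton] at h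
    have : Subsingleton M := Module.subsingleton R M
    exact not_subsingleton M this
  refine ⟨?_, hN⟩
  -- the additive equivalence
  let e₀ : (Fin L.d → MvPowerSeries (Fin r) 𝒪) →+ L.N :=
    { toFun := fun c => ∑ i, L.φ (c i) • L.b i
      map_zero' := by simp
      map_add' := by
        intro c c'
        simp [add_smul, Finset.sum_add_distrib] }
  have he₀inj : Function.Injective e₀ := by
    rw [injective_iff_map_eq_zero]
    intro c hc
    have := (L.b_rel c).mp hc
    funext i
    simpa using this i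
  have he₀surj : Function.Surjective e₀ := by
    intro x
    obtain ⟨c, hc⟩ := L.b_span x
    exact ⟨c, hc.symm⟩
  let e : (Fin L.d → MvPowerSeries (Fin r) 𝒪) ≃+ L.N := AddEquiv.ofBijective e₀ ⟨he₀inj, he₀surj⟩
  have he : ∀ (a : MvPowerSeries (Fin r) 𝒪) (c : Fin L.d → MvPowerSeries (Fin r) 𝒪),
      e (a • c) = L.φ a • e c := by
    intro a c
    change ∑ i, L.φ ((a • c) i) • L.b i = L.φ a • ∑ i, L.φ (c i) • L.b i
    simp [Finset.smul_sum, mul_smul]
  have hfin : Module.Finite (MvPowerSeries (Fin r) 𝒪) L.N := by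
    classical
    refine ⟨⟨Finset.univ.image L.b, ?_⟩⟩
    rw [_root_.eq_top_iff]
    intro x _
    obtain ⟨c, rfl⟩ := L.b_span x
    apply Submodule.sum_mem
    intro i _
    apply Submodule.smul_mem
    apply Submodule.subset_span
    simp
  have hw1 : IsWeaklyRegular (Fin L.d → MvPowerSeries (Fin r) 𝒪) (stdSeq 𝒪 ϖ r) := by
    have h := isWeaklyRegular_stdSeq 𝒪 ϖ hϖ.ne_zero r
    have h2 := h.isWeaklyRegular_lTensor (M₂ := Fin L.d → MvPowerSeries (Fin r) 𝒪)
    exact ((TensorProduct.rid _ _).isWeaklyRegular_congr _).mp h2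
  have hw2 : IsWeaklyRegular L.N ((stdSeq 𝒪 ϖ r).map L.φ) := by
    refine (AddEquiv.isWeaklyRegular_congr (e := e) ?_).mp hw1
    rw [List.forall₂_map_right_iff, List.forall₂_same]
    intro a _ c
    exact he a c
  have hmem : ∀ a ∈ (stdSeq 𝒪 ϖ r).map L.φ, a ∈ maximalIdeal (MvPowerSeries (Fin r) 𝒪) := by
    intro a ha
    rw [List.mem_map] at ha
    obtain ⟨a, ha, rfl⟩ := ha
    simp only [stdSeq, List.mem_append, List.mem_ofFn, List.mem_singleton] at ha
    rcases ha with ⟨i, rfl⟩ | rfl
    · intro hu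
      have := hu.map L.ψ
      rw [L.ψ_φ_X] at this
      exact not_isUnit_zero this
    · have h1 : L.φ (MvPowerSeries.C ϖ) = MvPowerSeries.C ϖ := L.φ.commutes ϖ
      rw [h1, ← ofList_stdSeq 𝒪 ϖ hmax r]
      apply Ideal.subset_span
      simp [stdSeq]
  have hreg : IsRegular L.N ((stdSeq 𝒪 ϖ r).map L.φ) :=
    (IsLocalRing.isRegular_iff_isWeaklyRegular_of_subset_maximalIdeal hmem).mpr hw2
  exact free_of_isRegular_of_length_eq (stdSeq 𝒪 ϖ r) _ (ofList_stdSeq 𝒪 ϖ hmax r) hreg (by simp)

theorem repr_mem_of_mem_smul_top {A : Type*} [CommRing A] {N : Type*} [AddCommGroup N] [Module A N]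
    {ι : Type*} (β : Module.Basis ι A N) (I : Ideal A) {x : N}
    (hx : x ∈ I • (⊤ : Submodule A N)) (i : ι) : β.repr x i ∈ I := by
  induction hx using Submodule.smul_induction_on' with
  | smul a ha n _ =>
    rw [map_smul, Finsupp.smul_apply, smul_eq_mul]
    exact I.mul_mem_right _ ha
  | add x _ y _ hx hy =>
    rw [map_add, Finsupp.add_apply]
    exact I.add_mem hx hy

theorem result
    {𝒪 : Type} [CommRing 𝒪] [IsDomain 𝒪] [IsDiscreteValuationRing 𝒪]
    {r : ℕ} {R : Type} [CommRing R] [Algebra 𝒪 R]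
    {M : Type} [AddCommGroup M] [Module R M] [Nontrivial M]
    (L : Algebra.PatchingLevel 𝒪 r R M ⊥) :
    Module.Free R M ∧ Module.annihilator R M = ⊥ ∧
      RingHom.ker L.ψ = Ideal.span (Set.range fun i : Fin r => L.φ (MvPowerSeries.X i)) := by
  obtain ⟨hfree, hnt⟩ := free_N L
  set I : Ideal (MvPowerSeries (Fin r) 𝒪) :=
    Ideal.span (Set.range fun i : Fin r => L.φ (MvPowerSeries.X i)) with hI
  let β := Module.Free.chooseBasis (MvPowerSeries (Fin r) 𝒪) L.N
  have hIker : I ≤ RingHom.ker L.ψ := by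
    rw [hI, Ideal.span_le]
    rintro _ ⟨i, rfl⟩
    exact L.ψ_φ_X i
  have hπsum : ∀ (s : Finset (Module.Free.ChooseBasisIndex (MvPowerSeries (Fin r) 𝒪) L.N))
      (g : Module.Free.ChooseBasisIndex (MvPowerSeries (Fin r) 𝒪) L.N → MvPowerSeries (Fin r) 𝒪),
      L.π (∑ i ∈ s, g i • β i) = ∑ i ∈ s, L.ψ (g i) • L.π (β i) := by
    intro s g
    rw [map_sum]
    exact Finset.sum_congr rfl fun i _ => L.π_smul _ _
  have hli : LinearIndependent R (fun i => L.π (β i)) := by
    classical
    rw [linearIndependent_iff']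
    intro s g hg i hi
    let g' := fun j => Function.surjInv L.ψ_surjective (g j)
    have hg' : ∀ j, L.ψ (g' j) = g j := fun j => Function.surjInv_eq L.ψ_surjective (g j)
    have h0 : L.π (∑ j ∈ s, g' j • β j) = 0 := by
      rw [hπsum, ← hg]
      exact Finset.sum_congr rfl fun j _ => by rw [hg']
    have h1 := (L.ker_π _).mp h0
    have h2 := repr_mem_of_mem_smul_top β I h1 i
    have h3 : β.repr (∑ j ∈ s, g' j • β j) i = g' i := by
      rw [map_sum, Finsupp.finsetSum_apply]
      simp only [map_smul, Module.Basis.repr_self, Finsupp.smul_apply, smul_eq_mul,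
        Finsupp.single_apply, mul_ite, mul_one, mul_zero]
      rw [Finset.sum_ite_eq' s i]
      simp [hi]
    rw [h3] at h2
    rw [← hg' i]
    exact hIker h2
  have hsp : ⊤ ≤ Submodule.span R (Set.range fun i => L.π (β i)) := by
    intro m hm
    clear hm
    obtain ⟨x, rfl⟩ := L.π_surjective m
    have hx := β.mem_span x
    induction hx using Submodule.span_induction with
    | mem x hx =>
      obtain ⟨i, rfl⟩ := hx
      exact Submodule.subset_span ⟨i, rfl⟩
    | zero => rw [map_zero]; exact Submodule.zero_mem _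
    | add x y _ _ hx hy => rw [map_add]; exact Submodule.add_mem _ hx hy
    | smul a x _ hx => rw [L.π_smul]; exact Submodule.smul_mem _ _ hx
  have hfreeM : Module.Free R M := Module.Free.of_basis (Module.Basis.mk hli hsp)
  refine ⟨hfreeM, Module.annihilator_eq_bot.mpr inferInstance, le_antisymm ?_ hIker⟩
  intro f hf
  obtain ⟨i₀⟩ : Nonempty (Module.Free.ChooseBasisIndex (MvPowerSeries (Fin r) 𝒪) L.N) :=
    β.index_nonempty
  have h0 : L.π (f • β i₀) = 0 := by
    rw [L.π_smul, RingHom.mem_ker.mp hf, zero_smul]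
  have h1 := (L.ker_π _).mp h0
  have h2 := repr_mem_of_mem_smul_top β I h1 i₀
  simpa using h2

end Fermat.Agent.S57
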